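import Fermat.Agent.S25.DefsDict

/-!
# Row S25, bridge AS9 (helper805): `Stmt.Charts` from the dictionary and `Stmt.AlgCharts`

Formal.  The two facts of the gluing-datum calculus that are needed (`IsIso` is reflexive, `IsBC`
is invariant under `IsIso` of the target) are proved here.
-/

set_option autoImplicit false
set_option linter.style.haveILetI false
universe u
open CategoryTheory CategoryTheory.Limits AlgebraicGeometry AlgebraicGeometry.RelPicard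
  NeronModelInfra GoodReductionJacobian
open scoped TensorProduct

namespace Fermat.Agent.S25.H805

section GDC

/-- Post-composing a semilinear base-change map with a linear equivalence of the target. -/
theorem isSemilinearBaseChange_equiv_comp {R R' : Type u} [CommRing R] [CommRing R']
    (ρ : R →+* R') {N N' N'' : Type u} [AddCommGroup N] [Module R N] [AddCommGroup N']
    [Module R' N'] [AddCommGroup N''] [Module R' N''] (b : N →ₛₗ[ρ] N') (e : N' ≃ₗ[R'] N'')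
    (h : IsSemilinearBaseChange ρ b) :
    IsSemilinearBaseChange ρ ((e : N' →ₗ[R'] N'').comp b) := by
  unfold IsSemilinearBaseChange at h ⊢
  letI : Algebra R R' := ρ.toAlgebra
  letI : Module R N' := Module.compHom N' ρ
  letI : Module R N'' := Module.compHom N'' ρ
  haveI : IsScalarTower R R' N' := ⟨fun r r' n => by
    change (ρ r * r') • n = ρ r • (r' • n); rw [mul_smul]⟩
  haveI : IsScalarTower R R' N'' := ⟨fun r r' n => by
    change (ρ r * r') • n = ρ r • (r' • n); rw [mul_smul]⟩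
  refine (IsBaseChange.iff_of_equiv_comm (LinearEquiv.refl R N) e ?_).mp h
  ext n
  rfl

variable {A R₀ R₁ R₀₁ : Type u} [CommRing A] [CommRing R₀] [CommRing R₁]
    [CommRing R₀₁] [Algebra A R₀] [Algebra A R₁] [Algebra A R₀₁] [Algebra R₀ R₀₁]
    [Algebra R₁ R₀₁] [IsScalarTower A R₀ R₀₁] [IsScalarTower A R₁ R₀₁]
    {A' R₀' R₁' R₀₁' : Type u} [CommRing A'] [CommRing R₀'] [CommRing R₁']
    [CommRing R₀₁'] [Algebra A' R₀'] [Algebra A' R₁'] [Algebra A' R₀₁'] [Algebra R₀' R₀₁']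
    [Algebra R₁' R₀₁'] [IsScalarTower A' R₀' R₀₁'] [IsScalarTower A' R₁' R₀₁']

/-- `IsIso` is reflexive. -/
theorem glueDatum_isIso_refl (G : GlueDatum A R₀ R₁ R₀₁) : G.IsIso G :=
  ⟨{ e₀ := LinearEquiv.refl _ _
     e₁ := LinearEquiv.refl _ _
     e₀₁ := LinearEquiv.refl _ _
     comm₀ := fun _ => rfl
     comm₁ := fun _ => rfl }⟩

/-- `IsBC` is invariant under isomorphism of the target. -/
theorem glueDatum_isBC_of_isIso {ρ₀ : R₀ →+* R₀'} {ρ₁ : R₁ →+* R₁'} {ρ₀₁ : R₀₁ →+* R₀₁'}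
    {G : GlueDatum A R₀ R₁ R₀₁} {G' G'' : GlueDatum A' R₀' R₁' R₀₁'}
    (h : GlueDatum.IsBC ρ₀ ρ₁ ρ₀₁ G G') (hiso : G'.IsIso G'') :
    GlueDatum.IsBC ρ₀ ρ₁ ρ₀₁ G G'' := by
  obtain ⟨b⟩ := h
  obtain ⟨e⟩ := hiso
  exact ⟨{
    b₀ := (e.e₀ : G'.N₀ →ₗ[R₀'] G''.N₀).comp b.b₀
    b₁ := (e.e₁ : G'.N₁ →ₗ[R₁'] G''.N₁).comp b.b₁
    b₀₁ := (e.e₀₁ : G'.N₀₁ →ₗ[R₀₁'] G''.N₀₁).comp b.b₀₁
    comm₀ := fun s => by
      change e.e₀₁ (b.b₀₁ (G.r₀ s)) = G''.r₀ (e.e₀ (b.b₀ s))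
      rw [b.comm₀, e.comm₀]
    comm₁ := fun s => by
      change e.e₀₁ (b.b₀₁ (G.r₁ s)) = G''.r₁ (e.e₁ (b.b₁ s))
      rw [b.comm₁, e.comm₁]
    isBaseChange₀ := isSemilinearBaseChange_equiv_comp ρ₀ b.b₀ e.e₀ b.isBaseChange₀
    isBaseChange₁ := isSemilinearBaseChange_equiv_comp ρ₁ b.b₁ e.e₁ b.isBaseChange₁
    isBaseChange₀₁ := isSemilinearBaseChange_equiv_comp ρ₀₁ b.b₀₁ e.e₀₁ b.isBaseChange₀₁ }⟩

end GDC

noncomputable section

variable {k : Type u} [Field k] {C : Scheme.{u}} {c : C ⟶ Spec (CommRingCat.of k)}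
  {ε : SchemeHomOver (𝟙 (Spec (CommRingCat.of k))) c}

/-- The chart family attached to an algebraic chart family by the dictionary. -/
def chartFamilyOfAlg (Ch : ChartOf c ε) (hSec : Stmt.DictSections Ch)
    (hGlue : Stmt.DictGlue Ch) (hIso : Stmt.DictIso Ch) (hBC : Stmt.DictBC Ch)
    (hDeg : Stmt.DictDeg Ch) (hEx : Stmt.AlgBCExists Ch)
    (F : AlgChartFamily k Ch.B₀ Ch.B₁ Ch.B₀₁ Ch.e) : ChartFamily c ε where
  ι := F.ι
  R := F.R
  finiteType := F.finiteType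
  bundle i := (hGlue (F.R i) (F.datum i) (F.rig i)).choose
  deg0 i := (hDeg (F.R i) _ (F.datum i) (hGlue (F.R i) (F.datum i) (F.rig i)).choose_spec).2
    (F.deg0 i)
  inj i A _ _ φ ψ hφψ := by
    have hcorr := (hGlue (F.R i) (F.datum i) (F.rig i)).choose_spec
    obtain ⟨G, hG⟩ := hEx (F.R i) A φ (F.datum i)
    obtain ⟨G', hG'⟩ := hEx (F.R i) A ψ (F.datum i)
    have h1 := hBC (F.R i) A φ _ (F.datum i) G hcorr hG
    have h2 := hBC (F.R i) A ψ _ (F.datum i) G' hcorr hG'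
    exact F.inj i A φ ψ G G' hG hG' ((hIso A _ _ G G' h1 h2).1 hφψ)
  locus A _ _ M hM := by
    obtain ⟨G, hG, hrig⟩ := hSec A M
    obtain ⟨I, hI, hloc⟩ := F.locus A G hrig ((hDeg A M G hG).1 hM)
    refine ⟨I, hI, fun i A' _ _ ψ => ?_⟩
    have hcorr := (hGlue (F.R i) (F.datum i) (F.rig i)).choose_spec
    obtain ⟨G', hG'⟩ := hEx A A' ψ G
    have hM' := hBC A A' ψ M G G' hG hG'
    rw [← hloc i A' ψ G' hG']
    constructor
    · rintro ⟨φ, hφ⟩
      obtain ⟨G'', hG''⟩ := hEx (F.R i) A' φ (F.datum i)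
      have h1 := hBC (F.R i) A' φ _ (F.datum i) G'' hcorr hG''
      exact ⟨φ, glueDatum_isBC_of_isIso hG'' ((hIso A' _ _ G'' G' h1 hM').1 hφ)⟩
    · rintro ⟨φ, hφ⟩
      have h1 := hBC (F.R i) A' φ _ (F.datum i) G' hcorr hφ
      exact ⟨φ, (hIso A' _ _ G' G' h1 hM').2 (glueDatum_isIso_refl G')⟩

/-- **AS9**: `Stmt.Charts` follows formally from the dictionary and `Stmt.AlgCharts`. -/
theorem charts_of_alg (Ch : ChartOf c ε) (hSec : Stmt.DictSections Ch)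
    (hGlue : Stmt.DictGlue Ch) (hIso : Stmt.DictIso Ch) (hBC : Stmt.DictBC Ch)
    (hDeg : Stmt.DictDeg Ch) (hEx : Stmt.AlgBCExists Ch)
    (hCharts : Stmt.AlgCharts k Ch.B₀ Ch.B₁ Ch.B₀₁) : Stmt.Charts c ε := by
  obtain ⟨F⟩ := hCharts Ch.x Ch.y Ch.e Ch.isCurveChart
  exact ⟨chartFamilyOfAlg Ch hSec hGlue hIso hBC hDeg hEx F⟩

end

end Fermat.Agent.S25.H805
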