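import Fermat.Agent.S25.H805.LocalP

/-!
# Row S25 (helper805): the degree condition in `Stmt.Def` is automatic

A geometric point of `Spec A` factors through `Spec (A ⧸ I)` when `I` is nilpotent, so a lift of a
degree-zero rigidified line bundle along a square-zero thickening is automatically of degree
zero.  Hence `Stmt.Def` follows from the lifting statement `DefNoDeg` without any degree theory.
-/

set_option autoImplicit false
universe u
open CategoryTheory CategoryTheory.Limits AlgebraicGeometry AlgebraicGeometry.RelPicard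
  NeronModelInfra GoodReductionJacobian

namespace Fermat.Agent.S25.H805

noncomputable section

variable {k : Type u} [Field k] {C : Scheme.{u}} (c : C ⟶ Spec (CommRingCat.of k))
  (ε : SchemeHomOver (𝟙 (Spec (CommRingCat.of k))) c)

/-- Degree zero can be tested after pulling back along a morphism through which every
geometric point factors. -/
theorem fibrewiseAlgEquivZero_of_pullbackAlong {c : C ⟶ Spec (CommRingCat.of k)}
    {ε : SchemeHomOver (𝟙 (Spec (CommRingCat.of k))) c} {T T' : Scheme.{u}}
    {t : T ⟶ Spec (CommRingCat.of k)} {t' : T' ⟶ Spec (CommRingCat.of k)}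
    (ψ : SchemeHomOver t' t) (M : RigidifiedLineBundle c ε t)
    (hlift : ∀ (K : Type u) [Field K] [IsAlgClosed K] (s : Spec (CommRingCat.of K) ⟶ T),
      ∃ s' : Spec (CommRingCat.of K) ⟶ T', s' ≫ ψ.1 = s)
    (h : FibrewiseAlgEquivZero (M.pullbackAlong ψ)) : FibrewiseAlgEquivZero M := by
  intro K _ _ s
  obtain ⟨s', hs'⟩ := hlift K s
  exact isAlgEquivZero_fibre_of_factor ψ M s s' hs' (h K s')

/-- Every field-valued point of `Spec A` factors through `Spec (A ⧸ I)` if `I ^ 2 = ⊥`. -/
theorem exists_factor_spec_quotient {A : Type u} [CommRing A] (I : Ideal A) (hI : I ^ 2 = ⊥)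
    (K : Type u) [Field K] (s : Spec (CommRingCat.of K) ⟶ Spec (CommRingCat.of A)) :
    ∃ s' : Spec (CommRingCat.of K) ⟶ Spec (CommRingCat.of (A ⧸ I)),
      s' ≫ Spec.map (CommRingCat.ofHom (Ideal.Quotient.mk I)) = s := by
  let σ : CommRingCat.of A ⟶ CommRingCat.of K := Spec.preimage s
  have hσ : Spec.map σ = s := Spec.map_preimage s
  have hker : ∀ a ∈ I, σ.hom a = 0 := by
    intro a ha
    have h2 : a ^ 2 ∈ I ^ 2 := Ideal.pow_mem_pow ha 2
    rw [hI, Ideal.mem_bot] at h2
    have : σ.hom a ^ 2 = 0 := by rw [← map_pow, h2, map_zero]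
    exact pow_eq_zero_iff (two_ne_zero) |>.mp this
  refine ⟨Spec.map (CommRingCat.ofHom (Ideal.Quotient.lift I σ.hom hker)), ?_⟩
  rw [← Spec.map_comp, ← hσ]
  congr 1

/-- DEF without the degree condition: every rigidified line bundle lifts along square-zero
thickenings of affine bases. -/
def DefNoDeg : Prop :=
  ∀ (A : Type u) [CommRing A] [Algebra k A] (I : Ideal A), I ^ 2 = ⊥ →
    ∀ M₀ : RigidifiedLineBundle c ε (specStr k (A ⧸ I)),
      ∃ M : RigidifiedLineBundle c ε (specStr k A),
        RIso (M.pullbackAlong (specHomOver k (Ideal.Quotient.mkₐ k I))) M₀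

/-- DEF with the degree condition only as a HYPOTHESIS on `M₀` (the form the algebraic model
proves if it wants to use degree zero): the conclusion carries no degree condition. -/
def DefWeak : Prop :=
  ∀ (A : Type u) [CommRing A] [Algebra k A] (I : Ideal A), I ^ 2 = ⊥ →
    ∀ M₀ : RigidifiedLineBundle c ε (specStr k (A ⧸ I)), FibrewiseAlgEquivZero M₀ →
      ∃ M : RigidifiedLineBundle c ε (specStr k A),
        RIso (M.pullbackAlong (specHomOver k (Ideal.Quotient.mkₐ k I))) M₀

theorem def_of_defWeak (h : DefWeak c ε) : Stmt.Def c ε := by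
  intro A _ _ I hI M₀ hM₀
  obtain ⟨M, hM⟩ := h A I hI M₀ hM₀
  refine ⟨M, ?_, hM⟩
  refine fibrewiseAlgEquivZero_of_pullbackAlong (specHomOver k (Ideal.Quotient.mkₐ k I)) M ?_
    (hM₀.congr ⟨hM.some.symm⟩)
  intro K _ _ s
  exact exists_factor_spec_quotient I hI K s

theorem def_of_defNoDeg (h : DefNoDeg c ε) : Stmt.Def c ε :=
  def_of_defWeak c ε fun A _ _ I hI M₀ _ => h A I hI M₀

end

end Fermat.Agent.S25.H805
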