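import Fermat.Agent.S25.DefsDict
import Fermat.Agent.S25.H805.DefReduce
import Fermat.Agent.S25.H805.BridgeCharts

/-!
# Row S25, bridge AS7 (helper805): `Stmt.Def` from the dictionary and `Stmt.AlgDef`

Formal.  No degree theory is needed (`DefReduce`): the only fact of the gluing-datum calculus
that enters is that rigidifiability lifts along square-zero thickenings (`RigLifts`).
-/

set_option autoImplicit false
set_option linter.style.haveILetI false
universe u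
open CategoryTheory CategoryTheory.Limits AlgebraicGeometry AlgebraicGeometry.RelPicard
  NeronModelInfra GoodReductionJacobian
open scoped TensorProduct

namespace Fermat.Agent.S25.H805

/-- GDC fact: rigidifiability of a gluing datum lifts along square-zero thickenings. -/
def RigLifts (k : Type u) [Field k] (B₀ B₁ B₀₁ : Type u) [CommRing B₀] [CommRing B₁]
    [CommRing B₀₁] [Algebra k B₀] [Algebra k B₁] [Algebra k B₀₁] [Algebra B₀ B₀₁]
    [Algebra B₁ B₀₁] [IsScalarTower k B₀ B₀₁] [IsScalarTower k B₁ B₀₁] (e : B₁ →ₐ[k] k) :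
    Prop :=
  ∀ (A : Type u) [CommRing A] [Algebra k A] (I : Ideal A), I ^ 2 = ⊥ →
    ∀ (G : CurveGD k B₀ B₁ B₀₁ A) (G₀ : CurveGD k B₀ B₁ B₀₁ (A ⧸ I)),
      CurveGD.IsBC (Ideal.Quotient.mkₐ k I) G G₀ → G₀.Rigidifiable e → G.Rigidifiable e

variable {k : Type u} [Field k] {C : Scheme.{u}} {c : C ⟶ Spec (CommRingCat.of k)}
  {ε : SchemeHomOver (𝟙 (Spec (CommRingCat.of k))) c}

/-- **AS7**: `Stmt.Def` follows formally from the dictionary, `Stmt.AlgDef` and `RigLifts`. -/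
theorem def_of_alg (Ch : ChartOf c ε) (hSec : Stmt.DictSections Ch)
    (hGlue : Stmt.DictGlue Ch) (hIso : Stmt.DictIso Ch) (hBC : Stmt.DictBC Ch)
    (hDef : Stmt.AlgDef k Ch.B₀ Ch.B₁ Ch.B₀₁) (hRig : RigLifts k Ch.B₀ Ch.B₁ Ch.B₀₁ Ch.e) :
    Stmt.Def c ε := by
  refine def_of_defNoDeg c ε ?_
  intro A _ _ I hI M₀
  obtain ⟨G₀, hG₀, hrig₀⟩ := hSec (A ⧸ I) M₀
  obtain ⟨G, hG⟩ := hDef Ch.x Ch.y Ch.e Ch.isCurveChart A I hI G₀
  obtain ⟨M, hM⟩ := hGlue A G (hRig A I hI G G₀ hG hrig₀)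
  have h1 := hBC A (A ⧸ I) (Ideal.Quotient.mkₐ k I) M G G₀ hM hG
  exact ⟨M, (hIso (A ⧸ I) _ M₀ G₀ G₀ h1 hG₀).2 (glueDatum_isIso_refl G₀)⟩

end Fermat.Agent.S25.H805
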