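import Fermat.Agent.S25.Defs

/-!
# Row S25, assembly block AS5 (helper805): `Stmt.LocalP`

Degree zero (`FibrewiseAlgEquivZero`) is Zariski-local on the base: every geometric point of `T`
factors through a member of the cover, and the fibre over it does not change.
-/

set_option autoImplicit false
universe u
open CategoryTheory CategoryTheory.Limits AlgebraicGeometry AlgebraicGeometry.RelPicard
  NeronModelInfra GoodReductionJacobian

namespace Fermat.Agent.S25.H805

noncomputable section

variable {k : Type u} [CommRing k] {C : Scheme.{u}} {c : C ⟶ Spec (CommRingCat.of k)}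
  {ε : SchemeHomOver (𝟙 (Spec (CommRingCat.of k))) c}

/-- If a geometric point `s` of `T` factors as `s' ≫ ψ` through `ψ : T' ⟶ T`, then the fibre
condition for `M` at `s` follows from the fibre condition for the pullback of `M` at `s'`. -/
theorem isAlgEquivZero_fibre_of_factor {T T' : Scheme.{u}} {t : T ⟶ Spec (CommRingCat.of k)}
    {t' : T' ⟶ Spec (CommRingCat.of k)} (ψ : SchemeHomOver t' t)
    (M : RigidifiedLineBundle c ε t) {K : Type u} [Field K]
    (s : Spec (CommRingCat.of K) ⟶ T) (s' : Spec (CommRingCat.of K) ⟶ T') (hs : s' ≫ ψ.1 = s)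
    (H : IsAlgEquivZero (fibreAt c t' s')
      ((Scheme.Modules.pullback (pullback.fst (pullback.snd c t') s')).obj
        (M.pullbackAlong ψ).L)) :
    IsAlgEquivZero (fibreAt c t s)
      ((Scheme.Modules.pullback (pullback.fst (pullback.snd c t) s)).obj M.L) := by
  have cond1 : (pullback.fst (pullback.snd c t) s ≫ pullback.fst c t) ≫ c =
      (pullback.snd (pullback.snd c t) s ≫ s') ≫ t' := by
    rw [Category.assoc, pullback.condition, ← Category.assoc, pullback.condition, Category.assoc,
      Category.assoc, ← hs, Category.assoc, ψ.2]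
  let e₀ : pullback (pullback.snd c t) s ⟶ pullback c t' :=
    pullback.lift (pullback.fst (pullback.snd c t) s ≫ pullback.fst c t)
      (pullback.snd (pullback.snd c t) s ≫ s') cond1
  let e : pullback (pullback.snd c t) s ⟶ pullback (pullback.snd c t') s' :=
    pullback.lift e₀ (pullback.snd (pullback.snd c t) s) (pullback.lift_snd _ _ _)
  have he : e ≫ fibreAt c t' s' = fibreAt c t s := pullback.lift_snd _ _ _
  have hfst : e ≫ pullback.fst (pullback.snd c t') s' ≫ baseChangeSnd c ψ =
      pullback.fst (pullback.snd c t) s := by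
    rw [← Category.assoc, show e ≫ pullback.fst (pullback.snd c t') s' = e₀ from
      pullback.lift_fst _ _ _]
    apply pullback.hom_ext
    · simp only [e₀, baseChangeSnd, Category.assoc, pullback.lift_fst, Category.comp_id]
    · simp only [e₀, baseChangeSnd, Category.assoc, pullback.lift_snd, pullback.lift_snd_assoc,
        hs, pullback.condition]
  refine IsAlgEquivZero.of_iso ?_ (H.pullback e he)
  exact (Scheme.Modules.pullbackComp _ _).app _ ≪≫
    (Scheme.Modules.pullbackComp _ _).app M.L ≪≫
    (Scheme.Modules.pullbackCongr (by rw [Category.assoc]; exact hfst)).app M.L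

/-- **AS5**: `Stmt.LocalP` (for any base ring `k`, no hypotheses on `c`). -/
theorem localP {k : Type u} [Field k] {C : Scheme.{u}} (c : C ⟶ Spec (CommRingCat.of k))
    (ε : SchemeHomOver (𝟙 (Spec (CommRingCat.of k))) c) : Stmt.LocalP c ε := by
  intro T t ι U hU M hloc K _ _ s
  -- the unique point of `Spec K` lands in some `U i`
  let p : Spec (CommRingCat.of K) := default
  have hp : s.base p ∈ (⨆ i, U i : T.Opens) := by rw [hU]; trivial
  obtain ⟨i, hi⟩ := TopologicalSpace.Opens.mem_iSup.mp hp
  have hrange : Set.range s.base ⊆ Set.range (U i).ι.base := by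
    rintro _ ⟨q, rfl⟩
    rw [Scheme.Opens.range_ι, Subsingleton.elim q p]
    exact hi
  let s' : Spec (CommRingCat.of K) ⟶ (U i).toScheme := IsOpenImmersion.lift (U i).ι s hrange
  have hs' : s' ≫ (U i).ι = s := IsOpenImmersion.lift_fac _ _ _
  exact isAlgEquivZero_fibre_of_factor (⟨(U i).ι, rfl⟩ : SchemeHomOver ((U i).ι ≫ t) t) M s s'
    hs' (hloc i K s')

end

end Fermat.Agent.S25.H805
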