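import Fermat.Agent.S25.Defs

/-!
# Row S25, assembly block AS1 (helper805): `Stmt.Def → Stmt.SmoothOfRep`

A representing object of the degree-zero rigidified Picard functor that is locally of finite
type over the field `k` is smooth over `k` as soon as degree-zero rigidified line bundles lift
along square-zero thickenings of affine bases.
-/

set_option autoImplicit false
universe u
open CategoryTheory CategoryTheory.Limits AlgebraicGeometry AlgebraicGeometry.RelPicard
  NeronModelInfra GoodReductionJacobian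

namespace Fermat.Agent.S25.H805

noncomputable section

variable {k : Type u} [Field k] {C : Scheme.{u}} {c : C ⟶ Spec (CommRingCat.of k)}
  {ε : SchemeHomOver (𝟙 (Spec (CommRingCat.of k))) c}

/-- `pullbackAlong` is compatible with composition, up to isomorphism. -/
theorem rIso_pullbackAlong_postComp {X X' T' : Scheme.{u}} {x : X ⟶ Spec (CommRingCat.of k)}
    {x' : X' ⟶ Spec (CommRingCat.of k)} {t' : T' ⟶ Spec (CommRingCat.of k)}
    (M : RigidifiedLineBundle c ε x') (φ : SchemeHomOver x x') (ψ : SchemeHomOver t' x) :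
    RIso (M.pullbackAlong (postComp φ ψ)) ((M.pullbackAlong φ).pullbackAlong ψ) :=
  ⟨(Scheme.Modules.pullbackCongr (baseChangeSnd_comp c φ ψ).symm).app M.L ≪≫
    ((Scheme.Modules.pullbackComp _ _).app M.L).symm⟩

/-- `Spec (B ⧸ I) ⟶ Spec B` is surjective for a square-zero ideal `I`. -/
theorem surjective_spec_quotient_of_sq_eq_bot {B : Type u} [CommRing B] (I : Ideal B)
    (hI : I ^ 2 = ⊥) :
    Function.Surjective (Spec.map (CommRingCat.ofHom (Ideal.Quotient.mk I))).base := by
  have hle : I ≤ nilradical B := by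
    intro x hx
    refine ⟨2, ?_⟩
    have : x ^ 2 ∈ I ^ 2 := Ideal.pow_mem_pow hx 2
    rwa [hI, Ideal.mem_bot] at this
  exact (PrimeSpectrum.comap_quotientMk_bijective_of_le_nilradical hle).2

/-- Core of AS1: an affine chart `j : Spec R ⟶ J` of a representing object is formally smooth
over `k`. -/
theorem formallySmooth_chart (hDef : Stmt.Def c ε) (D : RelativePic0Designation k c)
    (h : RepresentsRelSubPic c ε (algEquivZeroCut c ε) D)
    (R : CommRingCat.{u}) (ψ : CommRingCat.of k ⟶ R) (j : Spec R ⟶ D.P) [IsOpenImmersion j]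
    (hj : j ≫ D.toBase = Spec.map ψ) : ψ.hom.FormallySmooth := by
  let _ : Algebra k R := ψ.hom.toAlgebra
  show Algebra.FormallySmooth k R
  refine Algebra.FormallySmooth.of_comp_surjective ?_
  intro B _ _ I hI f
  -- the given `B ⧸ I`-point of the chart, as a point of `J` over `k`
  have hs₀ : (Spec.map (CommRingCat.ofHom f.toRingHom) ≫ j) ≫ D.toBase = specStr k (B ⧸ I) := by
    rw [Category.assoc, hj, specStr, ← Spec.map_comp]
    congr 1
    ext x
    exact f.commutes x
  let s₀ : SchemeHomOver (specStr k (B ⧸ I)) D.toBase :=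
    ⟨Spec.map (CommRingCat.ofHom f.toRingHom) ≫ j, hs₀⟩
  -- lift the corresponding bundle to `B`
  obtain ⟨M, hM, hMiso⟩ := hDef B I hI (h.poincare.pullbackAlong s₀)
    ((algEquivZeroCut c ε).pullback_mem _ _ s₀ _ h.poincare_mem)
  -- classify the lift
  let g : SchemeHomOver (specStr k B) D.toBase := h.classify (specStr k B) M hM
  have hg : RIso (h.poincare.pullbackAlong g) M := h.classify_spec (specStr k B) M hM
  let i : SchemeHomOver (specStr k (B ⧸ I)) (specStr k B) := specHomOver k (Ideal.Quotient.mkₐ k I)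
  have hcomp : postComp g i = s₀ := by
    refine h.ext_of_iso _ _ _ ?_
    obtain ⟨e₁⟩ := rIso_pullbackAlong_postComp h.poincare g i
    obtain ⟨e₂⟩ := RigidifiedLineBundle.pullbackAlong_congr i hg
    obtain ⟨e₃⟩ := hMiso
    exact ⟨e₁ ≪≫ e₂ ≪≫ e₃⟩
  have hcomp' : i.1 ≫ g.1 = Spec.map (CommRingCat.ofHom f.toRingHom) ≫ j :=
    congrArg Subtype.val hcomp
  -- the classifying map factors through the chart
  have hrange : Set.range g.1.base ⊆ Set.range j.base := by
    rintro _ ⟨x, rfl⟩
    obtain ⟨y, rfl⟩ := surjective_spec_quotient_of_sq_eq_bot I hI x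
    refine ⟨(Spec.map (CommRingCat.ofHom f.toRingHom)).base y, ?_⟩
    have := congrArg (fun φ : Spec (CommRingCat.of (B ⧸ I)) ⟶ D.P => φ.base y) hcomp'
    exact this.symm
  let l : Spec (CommRingCat.of B) ⟶ Spec R := IsOpenImmersion.lift j g.1 hrange
  have hl : l ≫ j = g.1 := IsOpenImmersion.lift_fac j g.1 hrange
  let γ : R ⟶ CommRingCat.of B := Spec.preimage l
  have hγ : Spec.map γ = l := Spec.map_preimage l
  -- `γ` is a `k`-algebra homomorphism
  have hγk : ψ ≫ γ = CommRingCat.ofHom (algebraMap k B) := by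
    apply Spec.map_injective
    rw [Spec.map_comp, hγ, ← hj, ← Category.assoc, hl]
    exact g.2
  -- `γ` lifts `f`
  have hγf : γ ≫ CommRingCat.ofHom (Ideal.Quotient.mk I) = CommRingCat.ofHom f.toRingHom := by
    apply Spec.map_injective
    rw [Spec.map_comp, hγ]
    rw [← cancel_mono j, Category.assoc, hl]
    exact hcomp'
  refine ⟨{ γ.hom with commutes' := fun r => ?_ }, ?_⟩
  · exact congrArg (fun φ : CommRingCat.of k ⟶ CommRingCat.of B => φ.hom r) hγk
  · ext r
    exact congrArg (fun φ : R ⟶ CommRingCat.of (B ⧸ I) => φ.hom r) hγf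

/-- An affine chart `j : Spec R ⟶ J` of a representing object that is locally of finite type
is smooth over `k`. -/
theorem smooth_chart (hDef : Stmt.Def c ε) (D : RelativePic0Designation k c)
    (h : RepresentsRelSubPic c ε (algEquivZeroCut c ε) D) (hlft : LocallyOfFiniteType D.toBase)
    (R : CommRingCat.{u}) (j : Spec R ⟶ D.P) [IsOpenImmersion j] :
    Smooth (j ≫ D.toBase) := by
  obtain ⟨ψ, hψ⟩ : ∃ ψ : CommRingCat.of k ⟶ R, Spec.map ψ = j ≫ D.toBase :=
    ⟨Spec.preimage _, Spec.map_preimage _⟩
  have hft : LocallyOfFiniteType (Spec.map ψ) := by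
    rw [hψ]
    infer_instance
  rw [HasRingHomProperty.Spec_iff (P := @LocallyOfFiniteType)] at hft
  rw [← hψ, HasRingHomProperty.Spec_iff (P := @Smooth), RingHom.smooth_def]
  exact ⟨formallySmooth_chart hDef D h R ψ j hψ.symm,
    RingHom.FinitePresentation.of_finiteType.mp hft⟩

set_option backward.isDefEq.respectTransparency.types false in
/-- **AS1**: `Stmt.Def → Stmt.SmoothOfRep`. -/
theorem smoothOfRep_of_def (hDef : Stmt.Def c ε) : Stmt.SmoothOfRep c ε := by
  intro D hD hlft
  obtain ⟨h⟩ := hD
  rw [IsZariskiLocalAtSource.iff_of_openCover (P := @Smooth.{u}) D.P.affineOpenCover.openCover]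
  intro i
  exact smooth_chart hDef D h hlft (D.P.affineOpenCover.X i) (D.P.affineOpenCover.f i)

end

end Fermat.Agent.S25.H805
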