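import Fermat.Agent.S25.DefsAlg

/-!
# Row S25, GDC fact (helper805): rigidifiability lifts along square-zero thickenings

Pure algebra.  If `P` is a finitely generated projective `A`-module, `I ^ 2 = ⊥` and
`P ⧸ I P ≅ A ⧸ I`, then `P ≅ A`.  Applied to `P = e^* N₁` this shows that a gluing datum over `A`
whose reduction modulo `I` is rigidifiable is rigidifiable.
-/

set_option autoImplicit false
set_option linter.style.haveILetI false
universe u
open scoped TensorProduct

namespace Fermat.Agent.S25.H805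

section CleanAlgebra

variable {A : Type u} [CommRing A] (I : Ideal A) {P : Type u} [AddCommGroup P] [Module A P]

/-- The kernel of a base-change map `P → A ⧸ I` is `I • ⊤`. -/
theorem mem_smul_top_of_isBaseChange_quotient (γ : P →ₗ[A] A ⧸ I)
    (hγ : IsBaseChange (A ⧸ I) γ) {q : P} (hq : γ q = 0) : q ∈ I • (⊤ : Submodule A P) := by
  have h1 : ((1 : A ⧸ I) ⊗ₜ[A] q) = 0 := by
    apply hγ.equiv.injective
    rw [hγ.equiv_tmul, hq, smul_zero, map_zero]
  have h2 := congrArg (TensorProduct.quotTensorEquivQuotSMul P I) h1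
  rw [map_zero, ← map_one (Ideal.Quotient.mk I), TensorProduct.quotTensorEquivQuotSMul_mk_tmul,
    one_smul] at h2
  exact (Submodule.Quotient.mk_eq_zero _).mp h2

/-- A finitely generated projective module over `A` whose reduction modulo a square-zero ideal
`I` is free of rank one is free of rank one. -/
theorem exists_linearEquiv_of_isBaseChange_quotient (hI : I ^ 2 = ⊥) [Module.Finite A P]
    [Module.Projective A P] (γ : P →ₗ[A] A ⧸ I) (hγ : IsBaseChange (A ⧸ I) γ) :
    Nonempty (A ≃ₗ[A] P) := by
  have hIjac : I ≤ Ideal.jacobson ⊥ := by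
    intro a ha
    have h2 : a ^ 2 ∈ I ^ 2 := Ideal.pow_mem_pow ha 2
    rw [hI, Ideal.mem_bot] at h2
    have hnil : a ∈ nilradical A := ⟨2, h2⟩
    have := nilradical_le_jacobson A hnil
    rwa [← Ideal.jacobson_bot] at this
  -- `γ` is surjective
  have hγsurj : Function.Surjective γ := by
    intro z
    refine hγ.inductionOn z (motive := fun z => ∃ q, γ q = z) ?_ ?_ ?_ ?_
    · exact ⟨0, map_zero _⟩
    · intro q; exact ⟨q, rfl⟩
    · rintro s _ ⟨q, rfl⟩
      obtain ⟨a, rfl⟩ := Ideal.Quotient.mk_surjective s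
      refine ⟨a • q, ?_⟩
      rw [map_smul]
      rfl
    · rintro _ _ ⟨q, rfl⟩ ⟨q', rfl⟩
      exact ⟨q + q', map_add _ _ _⟩
  obtain ⟨p, hp⟩ := hγsurj 1
  let f : A →ₗ[A] P := LinearMap.toSpanSingleton A P p
  have hγf : ∀ a : A, γ (f a) = Ideal.Quotient.mk I a := by
    intro a
    change γ (a • p) = _
    rw [map_smul, hp]
    change Ideal.Quotient.mk I a * 1 = _
    rw [mul_one]
  -- `f` is surjective by Nakayama
  have hsurj : Function.Surjective f := by
    rw [← LinearMap.range_eq_top, eq_top_iff]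
    refine Submodule.le_of_le_smul_of_le_jacobson_bot (I := I) Module.Finite.fg_top hIjac ?_
    intro q _
    obtain ⟨a, ha⟩ := Ideal.Quotient.mk_surjective (γ q)
    have hker : γ (q - f a) = 0 := by rw [map_sub, hγf, ha, sub_self]
    have := mem_smul_top_of_isBaseChange_quotient I γ hγ hker
    have hq : q = f a + (q - f a) := by abel
    rw [hq]
    exact Submodule.add_mem_sup (LinearMap.mem_range_self f a) this
  -- `f` is injective since it splits
  obtain ⟨s, hs⟩ := Module.projective_lifting_property f LinearMap.id hsurj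
  have hfs : ∀ q, f (s q) = q := fun q => LinearMap.congr_fun hs q
  have hker_le : ∀ a : A, f a = 0 → a ∈ I := by
    intro a ha
    have := hγf a
    rw [ha, map_zero] at this
    exact Ideal.Quotient.eq_zero_iff_mem.mp this.symm
  have hinj : Function.Injective f := by
    rw [← LinearMap.ker_eq_bot, LinearMap.ker_eq_bot']
    intro a ha
    have h1 : f (1 - s (f 1)) = 0 := by rw [map_sub, hfs, sub_self]
    have h2 : a = a * (1 - s (f 1)) := by
      have : a * s (f 1) = s (f a) := by
        rw [← smul_eq_mul, ← map_smul, ← map_smul, smul_eq_mul, mul_one]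
      rw [mul_sub, mul_one, this, ha, map_zero, sub_zero]
    have h3 : a * (1 - s (f 1)) ∈ I ^ 2 := by
      rw [pow_two]
      exact Ideal.mul_mem_mul (hker_le a ha) (hker_le _ h1)
    rw [hI, Ideal.mem_bot] at h3
    rw [h2, h3]
  exact ⟨LinearEquiv.ofBijective f ⟨hinj, hsurj⟩⟩

end CleanAlgebra

section Semilinear

variable {R R' A : Type u} [CommRing R] [CommRing R'] [CommRing A]

/-- Semilinear form: if `N` is f.g. projective over `R`, `ε : R → A`, and the base change of
`N` along `R → A → A ⧸ I` (computed through `R → R' → A ⧸ I`) is free of rank one, then the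
base change of `N` along `ε` is free of rank one. -/
theorem exists_isSemilinearBaseChange_of_quotient (I : Ideal A) (hI : I ^ 2 = ⊥)
    (ε : R →+* A) (ρ : R →+* R') (ε₀ : R' →+* A ⧸ I)
    (hcomm : ε₀.comp ρ = (Ideal.Quotient.mk I).comp ε)
    {N N' : Type u} [AddCommGroup N] [Module R N] [Module.Finite R N] [Module.Projective R N]
    [AddCommGroup N'] [Module R' N']
    (b : N →ₛₗ[ρ] N') (hb : IsSemilinearBaseChange ρ b)
    (β₀ : N' →ₛₗ[ε₀] A ⧸ I) (hβ₀ : IsSemilinearBaseChange ε₀ β₀) :
    ∃ β : N →ₛₗ[ε] A, IsSemilinearBaseChange ε β := by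
  have hcomm' : ∀ r, ε₀ (ρ r) = Ideal.Quotient.mk I (ε r) := fun r => RingHom.congr_fun hcomm r
  unfold IsSemilinearBaseChange at hb hβ₀
  -- `A` and `A ⧸ I` are `R`-algebras through `ε`
  letI a4 : Algebra R A := ε.toAlgebra
  -- instances for `hb`
  letI a1 : Algebra R R' := ρ.toAlgebra
  letI m1 : Module R N' := Module.compHom N' ρ
  haveI t1 : IsScalarTower R R' N' := ⟨fun r r' n => by
    change (ρ r * r') • n = ρ r • (r' • n); rw [mul_smul]⟩
  -- instances for `hβ₀`
  letI a2 : Algebra R' (A ⧸ I) := ε₀.toAlgebra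
  haveI t3 : IsScalarTower R R' (A ⧸ I) := IsScalarTower.of_algebraMap_eq fun r => (hcomm' r).symm
  let bL : N →ₗ[R] N' :=
    { toFun := fun n => b n
      map_add' := fun m n => b.map_add m n
      map_smul' := fun r n => LinearMap.map_smulₛₗ b r n }
  let βL : N' →ₗ[R'] A ⧸ I :=
    { toFun := fun n => β₀ n
      map_add' := fun m n => β₀.map_add m n
      map_smul' := fun r n => LinearMap.map_smulₛₗ β₀ r n }
  have hbL : IsBaseChange R' bL := hb
  have hβL : IsBaseChange (A ⧸ I) βL := hβ₀
  have hc : IsBaseChange (A ⧸ I) ((βL.restrictScalars R).comp bL) := IsBaseChange.comp hbL hβL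
  have hι : IsBaseChange A (TensorProduct.mk R A N 1) := TensorProduct.isBaseChange R N A
  have hγ : IsBaseChange (A ⧸ I) (hι.lift ((βL.restrictScalars R).comp bL)) :=
    IsBaseChange.of_comp hι (by rw [hι.lift_comp]; exact hc)
  obtain ⟨e⟩ := exists_linearEquiv_of_isBaseChange_quotient I hI _ hγ
  refine ⟨{ toFun := fun n => e.symm ((1 : A) ⊗ₜ[R] n)
            map_add' := fun m n => by rw [TensorProduct.tmul_add, map_add]
            map_smul' := fun r n => by
              rw [TensorProduct.tmul_smul, ← map_smul e.symm]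
              congr 1 }, ?_⟩
  unfold IsSemilinearBaseChange
  letI m4 : Module R A := Module.compHom A ε
  haveI t8 : IsScalarTower R A A := ⟨fun r r' n => by
    change (ε r * r') • n = ε r • (r' • n); rw [mul_smul]⟩
  exact IsBaseChange.of_equiv e.symm (fun x => rfl)

end Semilinear

section Curve

variable {k : Type u} [Field k] {B₀ B₁ B₀₁ : Type u} [CommRing B₀] [CommRing B₁] [CommRing B₀₁]
  [Algebra k B₀] [Algebra k B₁] [Algebra k B₀₁] [Algebra B₀ B₀₁] [Algebra B₁ B₀₁]
  [IsScalarTower k B₀ B₀₁] [IsScalarTower k B₁ B₀₁]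

/-- The marked section is compatible with base change of the coefficient ring. -/
theorem epsHom_comp_tensorMapLeft (e : B₁ →ₐ[k] k) {A A' : Type u} [CommRing A] [Algebra k A]
    [CommRing A'] [Algebra k A'] (φ : A →ₐ[k] A') :
    (epsHom e A').toRingHom.comp (tensorMapLeft k φ B₁) =
      φ.toRingHom.comp (epsHom e A).toRingHom := by
  refine RingHom.ext fun z => ?_
  induction z using TensorProduct.induction_on with
  | zero => simp
  | tmul a b =>
    simp only [tensorMapLeft, epsHom, AlgHom.toRingHom_eq_coe, RingHom.coe_comp, RingHom.coe_coe,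
      Function.comp_apply, Algebra.TensorProduct.map_tmul, AlgHom.coe_id, id_eq,
      Algebra.TensorProduct.lift_tmul, AlgHom.coe_comp, map_mul]
    congr 1
    change algebraMap k A' (e b) = φ (algebraMap k A (e b))
    rw [φ.commutes]
  | add x y hx hy =>
    simp only [RingHom.coe_comp, Function.comp_apply, map_add] at hx hy ⊢
    rw [hx, hy]

/-- **GDC fact**: rigidifiability of a gluing datum lifts along square-zero thickenings. -/
theorem curveGD_rigidifiable_of_isBC_quotient (e : B₁ →ₐ[k] k) (A : Type u) [CommRing A]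
    [Algebra k A] (I : Ideal A) (hI : I ^ 2 = ⊥) (G : CurveGD k B₀ B₁ B₀₁ A)
    (G₀ : CurveGD k B₀ B₁ B₀₁ (A ⧸ I)) (h : CurveGD.IsBC (Ideal.Quotient.mkₐ k I) G G₀)
    (h₀ : G₀.Rigidifiable e) : G.Rigidifiable e := by
  obtain ⟨bm⟩ := h
  obtain ⟨β₀, hβ₀⟩ := h₀
  haveI := G.invertible₁
  exact exists_isSemilinearBaseChange_of_quotient I hI (epsHom e A).toRingHom
    (tensorMapLeft k (Ideal.Quotient.mkₐ k I) B₁) (epsHom e (A ⧸ I)).toRingHom
    (epsHom_comp_tensorMapLeft e (Ideal.Quotient.mkₐ k I)) bm.b₁ bm.isBaseChange₁ β₀ hβ₀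

end Curve

end Fermat.Agent.S25.H805
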