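import Fermat.Agent.S25.H805.BridgeDef
import Fermat.Agent.S25.H805.RigLifts
import Fermat.Agent.S25.H805.SmoothOfRep

/-!
# Row S25, bridge AS7, final form (helper805): `Stmt.Def` from the dictionary and `Stmt.AlgDef`

`RigLifts` is a theorem (`RigLifts.lean`), so `Stmt.Def` needs only `DictSections`, `DictGlue`,
`DictIso`, `DictBC` and `AlgDef`.
-/

set_option autoImplicit false
universe u
open CategoryTheory CategoryTheory.Limits AlgebraicGeometry AlgebraicGeometry.RelPicard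
  NeronModelInfra GoodReductionJacobian
open scoped TensorProduct

namespace Fermat.Agent.S25.H805

/-- `RigLifts` holds for every chart. -/
theorem rigLifts (k : Type u) [Field k] (B₀ B₁ B₀₁ : Type u) [CommRing B₀] [CommRing B₁]
    [CommRing B₀₁] [Algebra k B₀] [Algebra k B₁] [Algebra k B₀₁] [Algebra B₀ B₀₁]
    [Algebra B₁ B₀₁] [IsScalarTower k B₀ B₀₁] [IsScalarTower k B₁ B₀₁] (e : B₁ →ₐ[k] k) :
    RigLifts k B₀ B₁ B₀₁ e :=
  fun A _ _ I hI G G₀ h h₀ => curveGD_rigidifiable_of_isBC_quotient e A I hI G G₀ h h₀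

variable {k : Type u} [Field k] {C : Scheme.{u}} {c : C ⟶ Spec (CommRingCat.of k)}
  {ε : SchemeHomOver (𝟙 (Spec (CommRingCat.of k))) c}

/-- **AS7, final form**: `Stmt.Def` from the dictionary and `Stmt.AlgDef`. -/
theorem def_of_dict_algDef (Ch : ChartOf c ε) (hSec : Stmt.DictSections Ch)
    (hGlue : Stmt.DictGlue Ch) (hIso : Stmt.DictIso Ch) (hBC : Stmt.DictBC Ch)
    (hDef : Stmt.AlgDef k Ch.B₀ Ch.B₁ Ch.B₀₁) : Stmt.Def c ε :=
  def_of_alg Ch hSec hGlue hIso hBC hDef (rigLifts k Ch.B₀ Ch.B₁ Ch.B₀₁ Ch.e)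

/-- `Stmt.SmoothOfRep` from the dictionary and `Stmt.AlgDef`. -/
theorem smoothOfRep_of_dict_algDef (Ch : ChartOf c ε) (hSec : Stmt.DictSections Ch)
    (hGlue : Stmt.DictGlue Ch) (hIso : Stmt.DictIso Ch) (hBC : Stmt.DictBC Ch)
    (hDef : Stmt.AlgDef k Ch.B₀ Ch.B₁ Ch.B₀₁) : Stmt.SmoothOfRep c ε :=
  smoothOfRep_of_def (def_of_dict_algDef Ch hSec hGlue hIso hBC hDef)

end Fermat.Agent.S25.H805
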