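import Fermat.Agent.S25.H205.BridgeDef
import Fermat.Agent.S25.H805.RigLifts

/-!
# Row S25 (helper805): the master-assembly input `H205.RigLift` is a theorem
-/

set_option autoImplicit false
universe u

namespace Fermat.Agent.S25.H805

/-- The GDC fact `H205.RigLift` used by `Assembly.result_of_blocks`. -/
theorem rigLift_h205 {k : Type u} [Field k] (B₀ B₁ B₀₁ : Type u) [CommRing B₀] [CommRing B₁]
    [CommRing B₀₁] [Algebra k B₀] [Algebra k B₁] [Algebra k B₀₁] [Algebra B₀ B₀₁]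
    [Algebra B₁ B₀₁] [IsScalarTower k B₀ B₀₁] [IsScalarTower k B₁ B₀₁] (e : B₁ →ₐ[k] k) :
    H205.RigLift B₀ B₁ B₀₁ e :=
  fun A _ _ I hI G G₀ h h₀ => curveGD_rigidifiable_of_isBC_quotient e A I hI G G₀ h h₀

end Fermat.Agent.S25.H805
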